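/-
GATE-B (Ribet level lowering, S38/S43) / node GB-SETUP, seam SETUP → B3 (helper61):
**the maximal ideal `𝔪_Q` of the algebra of Hecke symbols** (the `𝔪` binder of helper95's
`GB/B3/Final.exists_bigLevel / exists_twLevelData`, pin B3-CONV 5415 (C3)).

For `Sy : HeckeActH.Symbols N`, a local ring `O` with residue field `k` and residual eigenvalues
`a : Sy.ι₁ → k` (good symbols `T_ℓ`), `u : Sy.ι₂ → k` (symbols `U_r`, `r ∣ N`):

* `evalK Sy O a u : Sy.𝕋 O →+* k` — `X (inl i) ↦ a i`, `X (inr j) ↦ u j`, `C c ↦ c mod 𝔪_O`;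
* `mQ Sy O a u := ker evalK`, a MAXIMAL ideal (`isMaximal_mQ`, instance);
* `tauOf_notMem_mQ` : `a s0 ≠ ℓ_{s0} + 1 ⟹ tauOf Sy O s0 ∉ mQ` (the `hτ` binder);
* `mGood`, `mGood_eq_comap` : the restriction to the good symbols (the `𝔪` of helper21's
  `GB/Setup/DPosPlug.exists_isLoc_ne_zero_act0`).

For the SETUP bundle `P : SetupPkg.Pkg p W hcard₁ hker M A`:
* `aW P Sy i := (a_{ℓ_i}(W) : k)`, `mQW P Sy u := mQ Sy P.O (aW P Sy) u`;
* `exists_s0` : if the good symbols of `Sy` exhaust the primes outside a finite set, there is `s0`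
  with `tauOf Sy P.O s0 ∉ mQW P Sy u` (NON-EIS);
* `stdSymbols` : the canonical symbols at level `N` (all primes good for `W`, `∤ N`, `≠ p`; the
  `U`-symbols at a family of primes `r j ∣ N`), `exists_s0_std`.
-/
import Mathlib
import Fermat.Agent.GB.Setup.SetupPkg
import Fermat.Agent.GE8.P3B.GB.B3.StepInst
import Fermat.Agent.GE8.P3B.StepGen
import Fermat.Agent.GE8.P3B.Ok3W

/- TWIN (helper6 B4 generator; conventions of helper24 / helper86) of `Fermat.Agent.GB.Setup.MQ` with `p ≠ 3` relaxed to `Ok3A Sy 𝔪 p` / `Ok3W p W` (RISK-5 fix (B), step B4); everything below lives in the wrapper namespace `Fermat.Agent.GE8.P3B`. -/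
set_option linter.dupNamespace false
open Fermat Fermat.Agent Fermat.Agent.GB Fermat.Agent.GB.B3 Fermat.Agent.GB.B3.HeckeActH Fermat.Agent.GB.Setup Fermat.Agent.GB.Setup.SetupPkg

namespace Fermat.Agent.GE8.P3B

set_option autoImplicit false
set_option linter.unusedSectionVars false

open IsLocalRing MvPolynomial

namespace GB.Setup.MQ

open GB.B3.HeckeActH GB.B3.StepInst GB.Setup.SetupPkg

/-! ### the abstract ideal -/

section Abstract

variable {N : ℕ} (Sy : Symbols N) (O : Type) [CommRing O] [IsLocalRing O]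
  (a : Sy.ι₁ → ResidueField O) (u : Sy.ι₂ → ResidueField O)

/-- evaluation of the symbols at a residual eigensystem -/
noncomputable def evalK : Sy.𝕋 O →+* ResidueField O :=
  MvPolynomial.eval₂Hom (residue O) (Sum.elim a u)

theorem evalK_C (c : O) : evalK Sy O a u (C c) = residue O c := by
  rw [evalK, coe_eval₂Hom, eval₂_C]

theorem evalK_X_inl (i : Sy.ι₁) : evalK Sy O a u (X (Sum.inl i)) = a i := by
  rw [evalK, coe_eval₂Hom, eval₂_X, Sum.elim_inl]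

theorem evalK_X_inr (j : Sy.ι₂) : evalK Sy O a u (X (Sum.inr j)) = u j := by
  rw [evalK, coe_eval₂Hom, eval₂_X, Sum.elim_inr]

theorem evalK_surjective : Function.Surjective (evalK Sy O a u) := by
  intro x
  obtain ⟨c, rfl⟩ := residue_surjective x
  exact ⟨C c, evalK_C Sy O a u c⟩

/-- **the maximal ideal `𝔪_Q`** of the symbol algebra. -/
noncomputable def mQ : Ideal (Sy.𝕋 O) := RingHom.ker (evalK Sy O a u)

instance isMaximal_mQ : (mQ Sy O a u).IsMaximal :=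
  RingHom.ker_isMaximal_of_surjective _ (evalK_surjective Sy O a u)

theorem mem_mQ_iff (s : Sy.𝕋 O) : s ∈ mQ Sy O a u ↔ evalK Sy O a u s = 0 := RingHom.mem_ker

theorem C_mem_mQ_iff (c : O) : C c ∈ mQ Sy O a u ↔ c ∈ maximalIdeal O := by
  rw [mem_mQ_iff, evalK_C, residue_eq_zero_iff]

theorem X_inl_sub_C_mem (i : Sy.ι₁) (c : O) (hc : residue O c = a i) :
    X (Sum.inl i) - C c ∈ mQ Sy O a u := by
  rw [mem_mQ_iff, map_sub, evalK_X_inl, evalK_C, hc, sub_self]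

theorem X_inr_sub_C_mem (j : Sy.ι₂) (c : O) (hc : residue O c = u j) :
    X (Sum.inr j) - C c ∈ mQ Sy O a u := by
  rw [mem_mQ_iff, map_sub, evalK_X_inr, evalK_C, hc, sub_self]

/-- `T_ℓ - a ∈ 𝔪_Q ↔ a ≡ a_ℓ` -/
theorem X_inl_sub_C_mem_iff (i : Sy.ι₁) (c : O) :
    X (Sum.inl i) - C c ∈ mQ Sy O a u ↔ residue O c = a i := by
  rw [mem_mQ_iff, map_sub, evalK_X_inl, evalK_C, sub_eq_zero, eq_comm]

theorem X_inr_sub_C_mem_iff (j : Sy.ι₂) (c : O) :
    X (Sum.inr j) - C c ∈ mQ Sy O a u ↔ residue O c = u j := by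
  rw [mem_mQ_iff, map_sub, evalK_X_inr, evalK_C, sub_eq_zero, eq_comm]

/-- **the `hτ` binder of B3**: the element `T_ℓ - (ℓ + 1)` is a unit at `𝔪_Q` as soon as the
eigensystem is not Eisenstein at `ℓ`. -/
theorem tauOf_notMem_mQ [NeZero N] (s0 : Sy.ι₁)
    (h : a s0 ≠ ((Sy.ℓ s0 : ℕ) : ResidueField O) + 1) :
    tauOf Sy O s0 ∉ mQ Sy O a u := by
  rw [tauOf, X_inl_sub_C_mem_iff, map_natCast, Nat.cast_add, Nat.cast_one]
  exact fun h' => h h'.symm

/-! #### the good symbols -/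

/-- evaluation of the good symbols only -/
noncomputable def evalGood : MvPolynomial Sy.ι₁ O →+* ResidueField O :=
  MvPolynomial.eval₂Hom (residue O) a

theorem evalGood_C (c : O) : evalGood Sy O a (C c) = residue O c := by
  rw [evalGood, coe_eval₂Hom, eval₂_C]

theorem evalGood_X (i : Sy.ι₁) : evalGood Sy O a (X i) = a i := by
  rw [evalGood, coe_eval₂Hom, eval₂_X]

theorem evalK_rename (s : MvPolynomial Sy.ι₁ O) :
    evalK Sy O a u (rename Sum.inl s) = evalGood Sy O a s := by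
  rw [evalK, evalGood, coe_eval₂Hom, coe_eval₂Hom, eval₂_rename]
  rfl

theorem evalGood_surjective : Function.Surjective (evalGood Sy O a) := by
  intro x
  obtain ⟨c, rfl⟩ := residue_surjective x
  exact ⟨C c, evalGood_C Sy O a c⟩

/-- the maximal ideal of the good symbols -/
noncomputable def mGood : Ideal (MvPolynomial Sy.ι₁ O) := RingHom.ker (evalGood Sy O a)

instance isMaximal_mGood : (mGood Sy O a).IsMaximal :=
  RingHom.ker_isMaximal_of_surjective _ (evalGood_surjective Sy O a)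

/-- the good part of `𝔪_Q` -/
theorem mGood_eq_comap :
    mGood Sy O a =
      (mQ Sy O a u).comap ((rename Sum.inl : MvPolynomial Sy.ι₁ O →ₐ[O] Sy.𝕋 O) : _ →+* _) := by
  ext s
  rw [Ideal.mem_comap, mem_mQ_iff, mGood, RingHom.mem_ker]
  change _ ↔ evalK Sy O a u (rename Sum.inl s) = 0
  rw [evalK_rename]

end Abstract

/-! ### the ideal of `W` -/

section OfW

variable {p : ℕ} [Fact p.Prime] {W : WeierstrassCurve ℤ}
  {hcard₁ : Nat.card (Submodule.torsionBy ℤ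
    ((W.map (Int.castRingHom ℚ)).toAffine.baseChange (AlgebraicClosure ℚ)).Point p) = p ^ 2}
  {hker : GaloisFactorsThroughFiniteLevel
    (WeierstrassCurve.Affine.Point.galoisRepModuleEnd (K := AlgebraicClosure ℚ) ℚ
      (W.map (Int.castRingHom ℚ)) p)}
  {M A : ℕ} (P : Pkg p W hcard₁ hker M A) {N : ℕ} (Sy : Symbols N)

/-- the residual eigenvalues of `W` at the good symbols -/
noncomputable def aW : Sy.ι₁ → P.k := fun i => ((W.apOfModel (Sy.ℓ i) : ℤ) : P.k)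

/-- **`𝔪_Q` for `W`**: `T_ℓ ↦ a_ℓ(W)`, `U_{r_j} ↦ u j`. -/
noncomputable def mQW (u : Sy.ι₂ → P.k) : Ideal (Sy.𝕋 P.O) := mQ Sy P.O (aW P Sy) u

instance isMaximal_mQW (u : Sy.ι₂ → P.k) : (mQW P Sy u).IsMaximal := isMaximal_mQ Sy P.O _ u

/-- **NON-EIS at `𝔪_Q`**: if the good symbols of `Sy` contain every prime outside a finite set `B`,
then some `tauOf Sy O s0` lies outside `𝔪_Q`. -/
theorem exists_s0 [NeZero N] (u : Sy.ι₂ → P.k) (B : Finset ℕ)
    (hall : ∀ ℓ : ℕ, ℓ.Prime → ℓ ∉ B → W.IsGoodPrimeFor ℓ → ℓ ≠ p → ∃ i : Sy.ι₁, Sy.ℓ i = ℓ) :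
    ∃ s0 : Sy.ι₁, tauOf Sy P.O s0 ∉ mQW P Sy u := by
  obtain ⟨ℓ, hℓ, hℓB, hgood, -, hℓp, hne⟩ := P.exists_nonEis B
  obtain ⟨s0, hs0⟩ := hall ℓ hℓ hℓB hgood hℓp
  refine ⟨s0, tauOf_notMem_mQ Sy P.O _ u s0 ?_⟩
  change ((W.apOfModel (Sy.ℓ s0) : ℤ) : P.k) ≠ _
  rw [hs0]
  exact hne

/-- the canonical Hecke symbols of `W` at level `N`: all primes good for `W`, prime to `N p`; the
`U`-symbols at a family `r` of primes dividing `N`. -/
def stdSymbols (W : WeierstrassCurve ℤ) (p N : ℕ) {ι₂ : Type} (r : ι₂ → ℕ)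
    (hr : ∀ j, (r j).Prime) (hrN : ∀ j, r j ∣ N) : Symbols N where
  ι₁ := {ℓ : ℕ // ℓ.Prime ∧ W.IsGoodPrimeFor ℓ ∧ ¬ ℓ ∣ N ∧ ℓ ≠ p}
  ι₂ := ι₂
  ℓ := fun i => i.1
  hℓ := fun i => i.2.1
  hℓN := fun i => i.2.2.2.1
  r := r
  hr := hr
  hrN := hrN

theorem stdSymbols_good (N : ℕ) {ι₂ : Type} (r : ι₂ → ℕ) (hr : ∀ j, (r j).Prime)
    (hrN : ∀ j, r j ∣ N) (i : (stdSymbols W p N r hr hrN).ι₁) :
    W.IsGoodPrimeFor ((stdSymbols W p N r hr hrN).ℓ i) ∧ (stdSymbols W p N r hr hrN).ℓ i ≠ p :=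
  ⟨i.2.2.1, i.2.2.2.2⟩

/-- NON-EIS for the canonical symbols -/
theorem exists_s0_std [NeZero N] {ι₂ : Type} (r : ι₂ → ℕ) (hr : ∀ j, (r j).Prime)
    (hrN : ∀ j, r j ∣ N) (u : ι₂ → P.k) :
    ∃ s0 : (stdSymbols W p N r hr hrN).ι₁,
      tauOf (stdSymbols W p N r hr hrN) P.O s0 ∉ mQW P (stdSymbols W p N r hr hrN) u := by
  refine exists_s0 P (stdSymbols W p N r hr hrN) u N.primeFactors ?_
  intro ℓ hℓ hℓB hgood hℓp
  refine ⟨⟨ℓ, hℓ, hgood, ?_, hℓp⟩, rfl⟩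
  intro hdvd
  exact hℓB (Nat.mem_primeFactors.mpr ⟨hℓ, hdvd, NeZero.ne N⟩)

end OfW

end GB.Setup.MQ

end Fermat.Agent.GE8.P3B
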